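import Fermat.Agent.S21.H544.IntCSym

/-!
# S21 INT-C (helper544): the unfolding identity, with the INT-A facts on `chi` as hypotheses
-/

set_option autoImplicit false

open UpperHalfPlane CongruenceSubgroup Filter Topology MeasureTheory
open scoped MatrixGroups ComplexConjugate ContDiff

namespace Fermat.Agent.S21.H544

open Fermat.Agent.S21

variable (N : ℕ) {χ₁ : ℂ → ℝ}

theorem chi_eq_zero_of_notMem {z : ℂ} (hz : z ∉ Uhp) : chi N χ₁ z = 0 := by
  unfold chi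
  exact Set.indicator_of_notMem hz _

theorem measurableSet_Uhp : MeasurableSet Uhp := isOpen_Uhp.measurableSet

theorem continuousOn_dens {u η : ℂ → ℝ} (hu : ContDiffOn ℝ 1 u Uhp) (hη : ContDiff ℝ ∞ η) :
    ContinuousOn (dens u η) Uhp := by
  have h1 := hu.continuousOn_fderiv_of_isOpen isOpen_Uhp le_rfl
  have h2 : Continuous (fderiv ℝ η) := hη.continuous_fderiv (by simp)
  unfold dens
  exact ((h1.clm_apply continuousOn_const).mul (h2.continuousOn.clm_apply continuousOn_const)).add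
    ((h1.clm_apply continuousOn_const).mul (h2.continuousOn.clm_apply continuousOn_const))

theorem integrableOn_Uhp_of_continuousOn {f : ℂ → ℝ} (hf : ContinuousOn f Uhp) {K : Set ℂ}
    (hK : IsCompact K) (hKU : K ⊆ Uhp) (h0 : ∀ z ∈ Uhp, z ∉ K → f z = 0) :
    IntegrableOn f Uhp := by
  have h1 : IntegrableOn f K := (hf.mono hKU).integrableOn_compact hK
  exact h1.of_forall_sdiff_eq_zero measurableSet_Uhp (fun x hx => h0 x hx.1 hx.2)

/-- The translated density `z ↦ dens u η (γ z) / |cz+d|⁴`. -/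
noncomputable def phi (u η : ℂ → ℝ) (g : SL(2, ℤ)) (z : ℂ) : ℝ :=
  dens u η (mob g z) / ‖cd g z‖ ^ 4

theorem continuousOn_cd (g : SL(2, ℤ)) : ContinuousOn (cd g) Uhp := by
  unfold cd
  fun_prop

theorem continuousOn_phi {u η : ℂ → ℝ} (hu : ContDiffOn ℝ 1 u Uhp) (hη : ContDiff ℝ ∞ η)
    (g : SL(2, ℤ)) : ContinuousOn (phi u η g) Uhp := by
  unfold phi
  refine ContinuousOn.div ?_ ?_ ?_
  · exact (continuousOn_dens hu hη).comp (continuousOn_mob g) (fun z _ => mob_mem_Uhp g z)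
  · exact ((continuousOn_cd g).norm).pow 4
  · intro z hz
    exact pow_ne_zero 4 (norm_ne_zero_iff.mpr (SmallAux.cd_ne_zero g hz))

theorem integrableOn_phi {u η : ℂ → ℝ} (hu : ContDiffOn ℝ 1 u Uhp) (hη : IsTest η)
    (g : SL(2, ℤ)) : IntegrableOn (phi u η g) Uhp := by
  refine integrableOn_Uhp_of_continuousOn (continuousOn_phi hu hη.1 g)
    (K := mob g⁻¹ '' tsupport η) ?_ ?_ ?_
  · exact hη.2.1.image_of_continuousOn ((continuousOn_mob g⁻¹).mono hη.2.2)
  · rintro _ ⟨w, _, rfl⟩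
    exact mob_mem_Uhp _ _
  · intro z hz hzK
    have : mob g z ∉ tsupport η := fun hmem => hzK ⟨mob g z, hmem, mob_inv_mob g hz⟩
    simp [phi, dens_eq_zero_of_notMem_tsupport this]

theorem integrableOn_dens {u η : ℂ → ℝ} (hu : ContDiffOn ℝ 1 u Uhp) (hη : IsTest η) :
    IntegrableOn (dens u η) Uhp :=
  integrableOn_Uhp_of_continuousOn (continuousOn_dens hu hη.1) hη.2.1 hη.2.2
    (fun _ _ hz => dens_eq_zero_of_notMem_tsupport hz)

section Main

variable (hmeas : Measurable (chi N χ₁)) (h0 : ∀ z, 0 ≤ chi N χ₁ z)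
  (h1 : ∀ z, chi N χ₁ z ≤ 1)

include hmeas h0 h1 in
theorem integrableOn_phi_mul_chi {u η : ℂ → ℝ} (hu : ContDiffOn ℝ 1 u Uhp) (hη : IsTest η)
    (g : SL(2, ℤ)) : IntegrableOn (fun z => phi u η g z * chi N χ₁ z) Uhp := by
  refine (integrableOn_phi hu hη g).mul_bdd (c := 1) hmeas.aestronglyMeasurable ?_
  filter_upwards with z
  rw [Real.norm_eq_abs, abs_le]
  exact ⟨by linarith [h0 z], h1 z⟩

include hmeas h0 h1 in
theorem integrableOn_dens_mul_chi_mob {u η : ℂ → ℝ} (hu : ContDiffOn ℝ 1 u Uhp)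
    (hη : IsTest η) (g : SL(2, ℤ)) :
    IntegrableOn (fun w => dens u η w * chi N χ₁ (mob g w)) Uhp := by
  refine (integrableOn_dens hu hη).mul_bdd (c := 1) ?_ ?_
  · have hm : AEMeasurable (mob g) (volume.restrict Uhp) :=
      (continuousOn_mob g).aemeasurable measurableSet_Uhp
    exact (hmeas.comp_aemeasurable hm).aestronglyMeasurable
  · filter_upwards with z
    rw [Real.norm_eq_abs, abs_le]
    exact ⟨by linarith [h0 (mob g z)], h1 _⟩

/-- Change of variables for one piece. -/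
theorem setIntegral_phi_mul_chi (u η : ℂ → ℝ) (g : SL(2, ℤ)) :
    ∫ z in Uhp, phi u η g z * chi N χ₁ z
      = ∫ w in Uhp, dens u η w * chi N χ₁ (mob g⁻¹ w) := by
  have h := setIntegral_mob g Uhp measurableSet_Uhp subset_rfl
    (fun w => dens u η w * chi N χ₁ (mob g⁻¹ w))
  rw [mob_image_Uhp] at h
  rw [← h]
  refine setIntegral_congr_fun measurableSet_Uhp fun z hz => ?_
  simp only [phi, mob_inv_mob g hz]
  ring

end Main

/-- **INT-C, hypothesis-explicit form**: the unfolding identity, with the needed facts about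
`chi` (INT-A) as hypotheses. -/
theorem unfolding_of (hχ : IsSL2ZPartition χ₁)
    (hmeas : Measurable (chi N χ₁)) (h0 : ∀ z, 0 ≤ chi N χ₁ z) (h1 : ∀ z, chi N χ₁ z ≤ 1)
    (hlocfin : ∀ K : Set ℂ, IsCompact K → K ⊆ Uhp →
      {γ : Gamma0 N | ∃ z ∈ K, chi N χ₁ (mob (γ : SL(2, ℤ)) z) ≠ 0}.Finite)
    (hsum : ∀ z ∈ Uhp, ∑ᶠ γ : Gamma0 N, chi N χ₁ (mob (γ : SL(2, ℤ)) z) = 1)
    (u : ℂ → ℝ) (hu : ContDiffOn ℝ 1 u Uhp)
    (hinv : ∀ γ : Gamma0 N, ∀ z ∈ Uhp,
      dz u (mob (γ : SL(2, ℤ)) z) = (cd (γ : SL(2, ℤ)) z) ^ 2 * dz u z)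
    {η : ℂ → ℝ} (hη : IsTest η) :
    ∫ z, (fderiv ℝ u z 1 * fderiv ℝ (sym N η) z 1
        + fderiv ℝ u z Complex.I * fderiv ℝ (sym N η) z Complex.I) * chi N χ₁ z
      = ∫ z, (fderiv ℝ u z 1 * fderiv ℝ η z 1
        + fderiv ℝ u z Complex.I * fderiv ℝ η z Complex.I) := by
  classical
  change ∫ z, dens u (sym N η) z * chi N χ₁ z = ∫ z, dens u η z
  -- the finite set of relevant group elements
  have hC := hlocfin (tsupport η) hη.2.1 hη.2.2
  set T : Finset (Gamma0 N) := hC.toFinset.image (fun γ => γ⁻¹) with hT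
  have hTmem : ∀ (γ : Gamma0 N) (w : ℂ), w ∈ tsupport η →
      chi N χ₁ (mob ((γ : SL(2, ℤ))⁻¹) w) ≠ 0 → γ ∈ T := by
    intro γ w hw hne
    rw [hT, Finset.mem_image]
    refine ⟨γ⁻¹, ?_, inv_inv γ⟩
    rw [Set.Finite.mem_toFinset]
    exact ⟨w, hw, by simpa using hne⟩
  -- Claim A
  have hA : ∀ z ∈ Uhp, dens u (sym N η) z * chi N χ₁ z
      = ∑ γ ∈ T, phi u η (γ : SL(2, ℤ)) z * chi N χ₁ z := by
    intro z hz
    by_cases hchi : chi N χ₁ z = 0
    · simp [hchi]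
    obtain ⟨S, hS, hd⟩ := dens_sym N hχ u hinv hη hz
    rw [hd, ← Finset.sum_mul]
    congr 1
    have e1 : ∑ᶠ γ : Gamma0 N, phi u η (γ : SL(2, ℤ)) z
        = ∑ γ ∈ S, phi u η (γ : SL(2, ℤ)) z := by
      refine finsum_eq_sum_of_support_subset _ ?_
      intro γ hγ
      by_contra hγS
      exact hγ (by simp [phi, dens_eq_zero_of_notMem_tsupport (hS γ hγS)])
    have e2 : ∑ᶠ γ : Gamma0 N, phi u η (γ : SL(2, ℤ)) z
        = ∑ γ ∈ T, phi u η (γ : SL(2, ℤ)) z := by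
      refine finsum_eq_sum_of_support_subset _ ?_
      intro γ hγ
      have hmem : mob (γ : SL(2, ℤ)) z ∈ tsupport η := by
        by_contra hnot
        exact hγ (by simp [phi, dens_eq_zero_of_notMem_tsupport hnot])
      refine Finset.mem_coe.mpr (hTmem γ _ hmem ?_)
      rw [mob_inv_mob _ hz]
      exact hchi
    have : ∑ γ ∈ S, dens u η (mob (γ : SL(2, ℤ)) z) / ‖cd (γ : SL(2, ℤ)) z‖ ^ 4
        = ∑ γ ∈ S, phi u η (γ : SL(2, ℤ)) z := rfl
    rw [this, ← e1, e2]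
  -- Claim E
  have hE : ∀ w ∈ Uhp, ∑ γ ∈ T, dens u η w * chi N χ₁ (mob ((γ : SL(2, ℤ))⁻¹) w)
      = dens u η w := by
    intro w hw
    by_cases hd : dens u η w = 0
    · simp [hd]
    have hwK : w ∈ tsupport η := by
      by_contra hnot
      exact hd (dens_eq_zero_of_notMem_tsupport hnot)
    rw [← Finset.mul_sum]
    have e1 : ∑ᶠ γ : Gamma0 N, chi N χ₁ (mob ((γ : SL(2, ℤ))⁻¹) w)
        = ∑ γ ∈ T, chi N χ₁ (mob ((γ : SL(2, ℤ))⁻¹) w) := by
      refine finsum_eq_sum_of_support_subset _ ?_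
      intro γ hγ
      exact Finset.mem_coe.mpr (hTmem γ w hwK hγ)
    have e2 : ∑ᶠ γ : Gamma0 N, chi N χ₁ (mob ((γ : SL(2, ℤ))⁻¹) w) = 1 := by
      have := finsum_comp_equiv (Equiv.inv (Gamma0 N))
        (f := fun γ : Gamma0 N => chi N χ₁ (mob (γ : SL(2, ℤ)) w))
      simp only [Equiv.inv_apply, Subgroup.coe_inv] at this
      rw [this]
      exact hsum w hw
    rw [← e1, e2, mul_one]
  -- assembly
  calc ∫ z, dens u (sym N η) z * chi N χ₁ z
      = ∫ z in Uhp, dens u (sym N η) z * chi N χ₁ z := by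
        refine (setIntegral_eq_integral_of_forall_compl_eq_zero fun z hz => ?_).symm
        rw [chi_eq_zero_of_notMem N hz, mul_zero]
    _ = ∫ z in Uhp, ∑ γ ∈ T, phi u η (γ : SL(2, ℤ)) z * chi N χ₁ z :=
        setIntegral_congr_fun measurableSet_Uhp hA
    _ = ∑ γ ∈ T, ∫ z in Uhp, phi u η (γ : SL(2, ℤ)) z * chi N χ₁ z :=
        integral_finsetSum T fun γ _ => integrableOn_phi_mul_chi N hmeas h0 h1 hu hη _
    _ = ∑ γ ∈ T, ∫ w in Uhp, dens u η w * chi N χ₁ (mob ((γ : SL(2, ℤ))⁻¹) w) :=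
        Finset.sum_congr rfl fun γ _ => setIntegral_phi_mul_chi N u η _
    _ = ∫ w in Uhp, ∑ γ ∈ T, dens u η w * chi N χ₁ (mob ((γ : SL(2, ℤ))⁻¹) w) :=
        (integral_finsetSum T fun γ _ =>
          integrableOn_dens_mul_chi_mob N hmeas h0 h1 hu hη _).symm
    _ = ∫ w in Uhp, dens u η w := setIntegral_congr_fun measurableSet_Uhp hE
    _ = ∫ w, dens u η w := by
        refine setIntegral_eq_integral_of_forall_compl_eq_zero fun w hw => ?_
        exact dens_eq_zero_of_notMem_tsupport fun hmem => hw (hη.2.2 hmem)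

end Fermat.Agent.S21.H544
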