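import Fermat.Agent.S21.DefsMS
import Fermat.Agent.S21.Small

/-!
# S21 INT-C (helper544): basic facts on `mob`, proper discontinuity from a partition of unity
-/

set_option autoImplicit false

open UpperHalfPlane CongruenceSubgroup Filter Topology MeasureTheory
open scoped MatrixGroups ComplexConjugate ContDiff

namespace Fermat.Agent.S21.H544

open Fermat.Agent.S21

theorem mob_mem_Uhp (g : SL(2, ℤ)) (z : ℂ) : mob g z ∈ Uhp :=
  (g • ofComplex z : ℍ).im_pos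

theorem ofComplex_mob (g : SL(2, ℤ)) (z : ℂ) : ofComplex (mob g z) = g • ofComplex z := by
  unfold mob
  exact ofComplex_apply _

theorem mob_mul (g h : SL(2, ℤ)) (z : ℂ) : mob (g * h) z = mob g (mob h z) := by
  unfold mob
  rw [ofComplex_apply, mul_smul]

theorem mob_one {z : ℂ} (hz : z ∈ Uhp) : mob 1 z = z := by
  unfold mob
  rw [one_smul, ofComplex_apply_of_im_pos hz]

theorem mob_inv_mob (g : SL(2, ℤ)) {z : ℂ} (hz : z ∈ Uhp) : mob g⁻¹ (mob g z) = z := by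
  rw [← mob_mul, inv_mul_cancel, mob_one hz]

theorem mob_mob_inv (g : SL(2, ℤ)) {z : ℂ} (hz : z ∈ Uhp) : mob g (mob g⁻¹ z) = z := by
  rw [← mob_mul, mul_inv_cancel, mob_one hz]

theorem mob_image_Uhp (g : SL(2, ℤ)) : mob g '' Uhp = Uhp := by
  ext w
  constructor
  · rintro ⟨z, _, rfl⟩
    exact mob_mem_Uhp g z
  · intro hw
    exact ⟨mob g⁻¹ w, mob_mem_Uhp _ _, mob_mob_inv g hw⟩

theorem continuousOn_mob (g : SL(2, ℤ)) : ContinuousOn (mob g) Uhp := fun _ hz =>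
  ((SmallAux.hasStrictDerivAt_mob g hz).hasDerivAt.continuousAt).continuousWithinAt

theorem differentiableAt_mob (g : SL(2, ℤ)) {z : ℂ} (hz : z ∈ Uhp) :
    DifferentiableAt ℝ (mob g) z :=
  ((SmallAux.hasStrictDerivAt_mob g hz).hasDerivAt.differentiableAt).restrictScalars ℝ

/-- Proper discontinuity of the `SL(2,ℤ)`-action, derived from a partition of unity. -/
theorem finite_mob_mem {χ₁ : ℂ → ℝ} (hχ : IsSL2ZPartition χ₁) (K₁ K₂ : Set ℂ)
    (hK₁ : IsCompact K₁) (h₁ : K₁ ⊆ Uhp) (hK₂ : IsCompact K₂) (h₂ : K₂ ⊆ Uhp) :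
    {g : SL(2, ℤ) | ∃ z ∈ K₁, mob g z ∈ K₂}.Finite := by
  have hG₁ := hχ.locfin K₁ hK₁ h₁
  have hG₂ := hχ.locfin K₂ hK₂ h₂
  refine ((hG₂.prod hG₁).image (fun p : SL(2, ℤ) × SL(2, ℤ) => p.1⁻¹ * p.2)).subset ?_
  rintro γ ⟨z, hz, hw⟩
  have hsum := hχ.sum_eq_one (mob γ z) (h₂ hw)
  obtain ⟨g, hg⟩ : ∃ g : SL(2, ℤ), χ₁ (mob g (mob γ z)) ≠ 0 := by
    by_contra hcon
    simp only [not_exists, not_not] at hcon
    rw [finsum_congr hcon] at hsum
    simp at hsum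
  refine ⟨(g, g * γ), ⟨⟨mob γ z, hw, hg⟩, ⟨z, hz, ?_⟩⟩, by simp⟩
  rw [mob_mul]
  exact hg

end Fermat.Agent.S21.H544
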