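import Fermat.Agent.S21.H544.IntCBasic

/-!
# S21 INT-C (helper544): the Dirichlet density and its behaviour under symmetrization
-/

set_option autoImplicit false

open UpperHalfPlane CongruenceSubgroup Filter Topology MeasureTheory
open scoped MatrixGroups ComplexConjugate ContDiff

namespace Fermat.Agent.S21.H544

open Fermat.Agent.S21

/-- The Dirichlet form density `u_x η_x + u_y η_y`. -/
noncomputable def dens (u η : ℂ → ℝ) (w : ℂ) : ℝ :=
  fderiv ℝ u w 1 * fderiv ℝ η w 1 + fderiv ℝ u w Complex.I * fderiv ℝ η w Complex.I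

theorem dens_eq_re (u η : ℂ → ℝ) (w : ℂ) : dens u η w = (conj (dz u w) * dz η w).re := by
  unfold dens dz
  simp

theorem dens_eq_zero_of_notMem_tsupport {u η : ℂ → ℝ} {w : ℂ} (hw : w ∉ tsupport η) :
    dens u η w = 0 := by
  have h : fderiv ℝ η w = 0 := by
    have h0 : η =ᶠ[𝓝 w] fun _ => (0 : ℝ) := notMem_tsupport_iff_eventuallyEq.mp hw
    rw [h0.fderiv_eq]
    simp
  simp [dens, h]

/-- Behaviour of the density under composition with a Möbius transformation. -/
theorem dens_comp_mob (u η : ℂ → ℝ) (g : SL(2, ℤ)) {z : ℂ} (hz : z ∈ Uhp)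
    (hη : DifferentiableAt ℝ η (mob g z))
    (hinv : dz u (mob g z) = (cd g z) ^ 2 * dz u z) :
    dens u (fun w => η (mob g w)) z = dens u η (mob g z) / ‖cd g z‖ ^ 4 := by
  rw [dens_eq_re, dens_eq_re, dz_comp_mob η g z hz hη, hinv]
  have hc : cd g z ≠ 0 := SmallAux.cd_ne_zero g hz
  set c := cd g z with hcdef
  set a := dz u z
  set b := dz η (mob g z)
  have hc4 : ((‖c‖ ^ 4 : ℝ) : ℂ) = c ^ 2 * (conj c) ^ 2 := by
    rw [← mul_pow, Complex.mul_conj, Complex.normSq_eq_norm_sq]
    push_cast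
    ring
  have hcc : conj c ≠ 0 := by simpa using hc
  have key : conj a * (b / c ^ 2) = (conj (c ^ 2 * a) * b) / ((‖c‖ ^ 4 : ℝ) : ℂ) := by
    rw [hc4]
    simp only [map_mul, map_pow]
    field_simp
  rw [key, Complex.div_ofReal_re]

end Fermat.Agent.S21.H544
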